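import Mathlib.FieldTheory.IsAlgClosed.AlgebraicClosure
import Mathlib.FieldTheory.Galois.Basic
import Mathlib.FieldTheory.Perfect
import Mathlib.FieldTheory.Galois.Infinite
import Mathlib.Algebra.Algebra.Rat

/-!
# Instances for `ℚ̄` with its canonical `ℚ`-algebra structure

The frozen statements use `DivisionRing.toRatAlgebra` on `AlgebraicClosure ℚ`; these instances
transport the standard ones to it.
-/

set_option autoImplicit false

namespace Fermat.GR

attribute [local instance 10000] DivisionRing.toRatAlgebra

/-- `ℚ̄` is algebraic over `ℚ`, for the algebra structure of a characteristic zero field. -/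
instance isAlgebraic_ratBar : Algebra.IsAlgebraic ℚ (AlgebraicClosure ℚ) :=
  AlgebraicClosure.isAlgebraic ℚ

/-- `ℚ̄` is an algebraic closure of `ℚ`, for that structure. -/
instance isAlgClosure_ratBar : IsAlgClosure ℚ (AlgebraicClosure ℚ) :=
  ⟨inferInstance, isAlgebraic_ratBar⟩

/-- `ℚ̄` is Galois over `ℚ`, for that structure. -/
instance isGalois_ratBar : IsGalois ℚ (AlgebraicClosure ℚ) :=
  IsAlgClosure.isGalois ℚ (AlgebraicClosure ℚ)

end Fermat.GR
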